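import Fermat.Agent.CFT.Setup
import Fermat.Agent.CFT.Cup.Level
import Fermat.Agent.Galois.Decomposition

/-!
# Levels: normal refinements, finiteness, smooth coefficients
-/

set_option autoImplicit false

open CategoryTheory groupCohomology ExtCitation

noncomputable section

namespace Fermat.Agent.CFT

/-- A level whose fixing subgroup is preserved by conjugation can always be chosen. -/
def Levels.NormalBasis (L : Levels) : Prop :=
  ∀ F, L.ok F → ∃ F', L.ok F' ∧ Normal ℚ F' ∧ F ≤ F'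

theorem Levels.normalBasis_all : Levels.all.NormalBasis := fun F hF => by
  have : FiniteDimensional ℚ F := hF
  exact ⟨IntermediateField.normalClosure ℚ F (AlgebraicClosure ℚ),
    normalClosure.is_finiteDimensional ℚ F (AlgebraicClosure ℚ),
    (have : IsAlgClosure ℚ (AlgebraicClosure ℚ) :=
      ⟨inferInstance, AlgebraicClosure.isAlgebraic ℚ⟩
     have : Normal ℚ (AlgebraicClosure ℚ) := IsAlgClosure.normal ℚ (AlgebraicClosure ℚ)
     normalClosure.normal ℚ F (AlgebraicClosure ℚ)),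
    IntermediateField.le_normalClosure F⟩

open scoped Pointwise in
theorem Levels.normalBasis_unr (S : Finset Nat.Primes) : (Levels.unr S).NormalBasis := fun F hF => by
  obtain ⟨F', hF', hN, hle⟩ := Levels.normalBasis_all F hF.1
  have hfin : FiniteDimensional ℚ F := hF.1
  have hNbar : Normal ℚ (AlgebraicClosure ℚ) := by
    have : IsAlgClosure ℚ (AlgebraicClosure ℚ) :=
      ⟨inferInstance, AlgebraicClosure.isAlgebraic ℚ⟩
    exact IsAlgClosure.normal ℚ (AlgebraicClosure ℚ)
  refine ⟨IntermediateField.normalClosure ℚ F (AlgebraicClosure ℚ),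
    ⟨normalClosure.is_finiteDimensional ℚ F (AlgebraicClosure ℚ), fun q hq A hA σ hσ => ?_⟩,
    normalClosure.normal ℚ F (AlgebraicClosure ℚ), IntermediateField.le_normalClosure F⟩
  suffices h : IntermediateField.normalClosure ℚ F (AlgebraicClosure ℚ) ≤
      IntermediateField.fixedField (Subgroup.zpowers σ) from
    (IntermediateField.le_iff_le _ _).1 h (Subgroup.mem_zpowers σ)
  rw [normalClosure_le_iff]
  intro f
  rw [IntermediateField.le_iff_le, Subgroup.zpowers_le, IntermediateField.mem_fixingSubgroup_iff]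
  rintro _ ⟨y, rfl⟩
  let τ : GQ := f.liftNormal (AlgebraicClosure ℚ) |> fun g => AlgEquiv.ofBijective g
    (Algebra.IsAlgebraic.algHom_bijective g)
  have hτ : f y = τ (y : AlgebraicClosure ℚ) :=
    (AlgHom.liftNormal_commutes f (AlgebraicClosure ℚ) y).symm
  have hin : τ⁻¹ * σ * τ ∈ (τ⁻¹ • A).inertiaSubgroupIn ℚ := by
    rw [Galois.mem_inertia_smul_iff]
    simpa [mul_assoc] using hσ
  have := (IntermediateField.mem_fixingSubgroup_iff _ _).1
    (hF.2 q hq _ (Galois.liesOverPrime_smul hA τ⁻¹) hin) y y.2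
  have h2 := congrArg τ this
  simp only [AlgEquiv.mul_apply] at h2
  change σ (f y) = f y
  rw [hτ]
  exact (τ.apply_symm_apply _).symm.trans h2

variable {G : Type} [Group G] {L : Levels} {r : G →* GQ}

/-- A normal level: its preimage is stable under conjugation. -/
lemma conj_mem_level {F : IntermediateField ℚ (AlgebraicClosure ℚ)} (hN : Normal ℚ F) {s : G}
    (hs : r s ∈ F.fixingSubgroup) (g : G) : r (g⁻¹ * s * g) ∈ F.fixingSubgroup := by
  simp only [map_mul, map_inv]
  exact Cup.conj_mem_fixingSubgroup F hs _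

lemma level_antitone {F F' : IntermediateField ℚ (AlgebraicClosure ℚ)} (h : F ≤ F') {s : G}
    (hs : r s ∈ F'.fixingSubgroup) : r s ∈ F.fixingSubgroup :=
  IntermediateField.fixingSubgroup_antitone h hs

lemma Levels.exists_normal₂ (hL : L.NormalBasis) {F₁ F₂ : IntermediateField ℚ (AlgebraicClosure ℚ)}
    (h₁ : L.ok F₁) (h₂ : L.ok F₂) : ∃ F, L.ok F ∧ Normal ℚ F ∧ F₁ ≤ F ∧ F₂ ≤ F := by
  obtain ⟨F, hF, hN, hle⟩ := hL _ (L.sup _ _ h₁ h₂)
  exact ⟨F, hF, hN, le_sup_left.trans hle, le_sup_right.trans hle⟩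

/-- A common level for a finite family. -/
lemma Levels.exists_ge {ι : Type*} [Finite ι] (F : ι → IntermediateField ℚ (AlgebraicClosure ℚ))
    (hF : ∀ i, L.ok (F i)) : ∃ F', L.ok F' ∧ ∀ i, F i ≤ F' := by
  classical
  have := Fintype.ofFinite ι
  suffices h : ∀ s : Finset ι, ∃ F', L.ok F' ∧ ∀ i ∈ s, F i ≤ F' by
    obtain ⟨F', h₁, h₂⟩ := h Finset.univ
    exact ⟨F', h₁, fun i => h₂ i (Finset.mem_univ i)⟩
  intro s
  induction s using Finset.induction with
  | empty => exact ⟨⊥, L.bot, by simp⟩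
  | @insert i s _ ih =>
    obtain ⟨F', h₁, h₂⟩ := ih
    refine ⟨F i ⊔ F', L.sup _ _ (hF i) h₁, fun j hj => ?_⟩
    rcases Finset.mem_insert.1 hj with rfl | hj
    · exact le_sup_left
    · exact (h₂ j hj).trans le_sup_right

lemma IsConst₁.isLevelConstant₁ {X : Type*} {f : G → X} (hf : IsConst₁ L r f) :
    IsLevelConstant₁ r f := by
  obtain ⟨F, hF, h⟩ := hf
  exact ⟨F, L.finite F hF, h⟩

lemma IsConst₁.finite_range {X : Type*} {f : G → X} (hf : IsConst₁ L r f) : (Set.range f).Finite :=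
  Cup.finite_range_of_isLevelConstant₁ hf.isLevelConstant₁

lemma IsLevelSubgroup.isConst₁_mk {U : Subgroup G} (hU : IsLevelSubgroup L r U) :
    IsConst₁ L r (fun g => (QuotientGroup.mk g : G ⧸ U)) := by
  obtain ⟨F, hF, h⟩ := hU
  exact ⟨F, hF, fun g s hs => by simpa [QuotientGroup.eq] using h s hs⟩

lemma IsLevelSubgroup.finite_quotient {U : Subgroup G} (hU : IsLevelSubgroup L r U) :
    Finite (G ⧸ U) := by
  have h := hU.isConst₁_mk.finite_range
  rw [Set.range_eq_univ.2 QuotientGroup.mk_surjective] at h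
  exact Set.finite_univ_iff.1 h

variable {k : Type} [CommRing k] {M : Rep.{0} k G}

lemma IsSmoothRep.exists_fix (hM : IsSmoothRep L r M) {ι : Type*} {f : ι → M}
    (hf : (Set.range f).Finite) :
    ∃ F, L.ok F ∧ ∀ s : G, r s ∈ F.fixingSubgroup → ∀ i, M.ρ s (f i) = f i := by
  have : Finite (Set.range f) := hf.to_subtype
  choose F hF hfix using fun b : Set.range f => hM b.1
  obtain ⟨F', hF', hle⟩ := Levels.exists_ge (L := L) F hF
  exact ⟨F', hF', fun s hs i => hfix ⟨f i, i, rfl⟩ s (level_antitone (hle _) hs)⟩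

/-- The coboundary of a constant 1-cochain is constant. -/
lemma IsSmoothRep.isConst₂_d₁₂ (hL : L.NormalBasis) (hM : IsSmoothRep L r M) {x : G → M}
    (hx : IsConst₁ L r x) : IsConst₂ L r ((d₁₂ M).hom x) := by
  obtain ⟨F₁, hF₁, h₁⟩ := hM.exists_fix hx.finite_range
  obtain ⟨F₀, hF₀, h₀⟩ := hx
  obtain ⟨F, hF, hN, hle₀, hle₁⟩ := Levels.exists_normal₂ hL hF₀ hF₁
  refine ⟨F, hF, fun g g' s s' hs hs' => ?_⟩
  have e : g * s * (g' * s') = g * g' * (g'⁻¹ * s * g' * s') := by group
  have hs'' : r (g'⁻¹ * s * g' * s') ∈ F₀.fixingSubgroup := by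
    rw [map_mul]
    exact mul_mem (level_antitone hle₀ (conj_mem_level hN hs g')) (level_antitone hle₀ hs')
  simp only [d₁₂_hom_apply]
  rw [h₀ g s (level_antitone hle₀ hs), h₀ g' s' (level_antitone hle₀ hs'), e,
    h₀ (g * g') _ hs'', map_mul, Module.End.mul_apply, h₁ s (level_antitone hle₁ hs)]

end Fermat.Agent.CFT
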