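import Fermat.Agent.CFT.Cohomology.Basic

/-!
# Exactness in degree two, cup products of constant cochains
-/

set_option autoImplicit false

open CategoryTheory groupCohomology ExtCitation

noncomputable section

namespace Fermat.Agent.CFT

variable {G : Type} [Group G] {L : Levels} {r : G →* GQ} {k : Type} [CommRing k]
  {A B C : Rep.{0} k G} {φ : A →ₗ[k] B} {hφ : ∀ g a, φ (A.ρ g a) = B.ρ g (φ a)}
  {ψ : B →ₗ[k] C} {hψ : ∀ g b, ψ (B.ρ g b) = C.ρ g (ψ b)}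

lemma pushH2_mk {A B : Rep.{0} k G} (φ : A →ₗ[k] B) (hφ : ∀ g a, φ (A.ρ g a) = B.ρ g (φ a))
    (c : ↥(Z2 L r A)) (hc : φ ∘ c.1 ∈ Z2 L r B) :
    pushH2 φ hφ (H2cπ L r A c) = H2cπ L r B ⟨φ ∘ c.1, hc⟩ := rfl

lemma H2cπ_eq_zero_iff {A : Rep.{0} k G} (c : ↥(Z2 L r A)) :
    H2cπ L r A c = 0 ↔ ∃ y, IsConst₁ L r y ∧ (d₁₂ A).hom y = c.1 :=
  (Submodule.Quotient.mk_eq_zero _).trans Iff.rfl

lemma push_mem_Z2 {A B : Rep.{0} k G} (φ : A →ₗ[k] B) (hφ : ∀ g a, φ (A.ρ g a) = B.ρ g (φ a))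
    (c : ↥(Z2 L r A)) : φ ∘ c.1 ∈ Z2 L r B :=
  (mapZ2 (MonoidHom.id G) (isLevelHom_of_eq _ fun _ => rfl) φ hφ c).2

theorem pushH2_exact (hL : L.NormalBasis) (hB : IsSmoothRep L r B) (hi : Function.Injective φ)
    (hs : Function.Surjective ψ) (he : Function.Exact φ ψ) :
    Function.Exact (pushH2 (L := L) (r := r) φ hφ) (pushH2 (L := L) (r := r) ψ hψ) := by
  intro x
  obtain ⟨c, rfl⟩ := Submodule.mkQ_surjective _ x
  constructor
  · intro hx
    rw [pushH2_mk _ _ c (push_mem_Z2 ψ hψ c), H2cπ_eq_zero_iff] at hx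
    obtain ⟨y, hy, e⟩ := hx
    have hys : IsConst₁ L r (Function.surjInv hs ∘ y) := hy.comp _
    have hd := hB.isConst₂_d₁₂ hL hys
    set c' := c.1 - (d₁₂ B).hom (Function.surjInv hs ∘ y) with hc'
    have hker : ∀ gh, ψ (c' gh) = 0 := fun ⟨g, h⟩ => by
      have := congrFun e (g, h)
      simp only [d₁₂_hom_apply, Function.comp_apply] at this
      simp only [hc', Pi.sub_apply, d₁₂_hom_apply, Function.comp_apply, map_sub, map_add, hψ,
        Function.surjInv_eq hs, this, sub_self]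
    have hc'2 : c' ∈ cocycles₂ B :=
      sub_mem c.2.1 (d₁₂_apply_mem_cocycles₂ (A := B) _)
    let a : G × G → A := fun gh => Function.invFun φ (c' gh)
    have ha : φ ∘ a = c' := funext fun gh => Function.invFun_eq ((he _).1 (hker gh))
    have hac : IsConst₂ L r a := by
      have h1 : IsConst₂ L r c' :=
        (c.2.2.prodMk hd).comp (fun z => z.1 - z.2)
      exact h1.comp (Function.invFun φ)
    have ha2 : a ∈ cocycles₂ A := (mem_cocycles₂_iff a).2 fun g h j => hi <| by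
      have := (mem_cocycles₂_iff c').1 hc'2 g h j
      rw [← ha] at this
      simpa [map_add, hφ] using this
    refine ⟨H2cπ L r A ⟨a, ha2, hac⟩, ?_⟩
    rw [pushH2_mk _ _ _ (push_mem_Z2 φ hφ ⟨a, ha2, hac⟩), ← sub_eq_zero, ← map_sub,
      H2cπ_eq_zero_iff]
    refine ⟨-(Function.surjInv hs ∘ y), hys.comp Neg.neg, ?_⟩
    rw [map_neg]
    simp only [Submodule.coe_sub, ha, hc']
    abel
  · rintro ⟨z, hz⟩
    obtain ⟨a, rfl⟩ := Submodule.mkQ_surjective _ z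
    rw [← hz, pushH2_mk _ _ a (push_mem_Z2 φ hφ a),
      pushH2_mk _ _ _ (push_mem_Z2 ψ hψ ⟨_, push_mem_Z2 φ hφ a⟩), H2cπ_eq_zero_iff]
    refine ⟨0, ⟨⊥, L.bot, fun _ _ _ => rfl⟩, ?_⟩
    rw [map_zero]
    exact funext fun gh => (he.apply_apply_eq_zero _).symm

theorem pushH2_ker_eq_delta (he : Function.Exact φ ψ) (c : ↥(Z2 L r A))
    (hψ : ∀ g b, ψ (B.ρ g b) = C.ρ g (ψ b))
    (hc : pushH2 (L := L) (r := r) φ hφ (H2cπ L r A c) = 0) :
    ∃ z : G → B, IsConst₁ L r z ∧ (∀ s t, ψ (z (s * t)) = C.ρ s (ψ (z t)) + ψ (z s)) ∧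
      ∀ s t, φ (c.1 (s, t)) = B.ρ s (z t) - z (s * t) + z s := by
  rw [pushH2_mk _ _ c (push_mem_Z2 φ hφ c), H2cπ_eq_zero_iff] at hc
  obtain ⟨z, hz, e⟩ := hc
  have e' : ∀ s t, φ (c.1 (s, t)) = B.ρ s (z t) - z (s * t) + z s := fun s t => by
    have := congrFun e (s, t)
    simpa [d₁₂_hom_apply] using this.symm
  refine ⟨z, hz, fun s t => ?_, e'⟩
  have := congrArg ψ (e' s t)
  rw [he.apply_apply_eq_zero, map_add, map_sub, hψ] at this
  rw [← sub_eq_zero, show ψ (z (s * t)) - (C.ρ s (ψ (z t)) + ψ (z s)) =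
    -(C.ρ s (ψ (z t)) - ψ (z (s * t)) + ψ (z s)) + 0 by abel, ← this]
  simp

variable {p : ℕ} [Fact p.Prime]

theorem cupCochain_mem_Z2 {χ : G →* (ZMod p)ˣ} {A M : Rep.{0} (ZMod p) G}
    (hM : IsSmoothRep L r M) (P : DualPair p χ A M) (C : Rep.{0} (ZMod p) G)
    (e : ZMod p ≃ₗ[ZMod p] C) (he : ∀ g x, C.ρ g (e x) = e ((χ g : ZMod p) * x))
    (a : cocycles₁ A) (m : cocycles₁ M) (ha : IsConst₁ L r a) (hm : IsConst₁ L r m) :
    (fun g : G × G => e (P.β (a g.1) (M.ρ g.1 (m g.2)))) ∈ Z2 L r C := by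
  refine ⟨(mem_cocycles₂_iff _).2 ?_, ?_⟩
  · intro g h j
    rw [he, ← P.equivariant, ← map_add, ← map_add]
    congr 1
    rw [(mem_cocycles₁_iff a).1 a.2 g h, (mem_cocycles₁_iff m).1 m.2 h j]
    simp only [map_add, LinearMap.add_apply, map_mul, Module.End.mul_apply]
    abel
  · obtain ⟨F₂, hF₂, h₂⟩ := hM.exists_fix hm.finite_range
    obtain ⟨F₀, hF₀, h₀⟩ := ha
    obtain ⟨F₁, hF₁, h₁⟩ := hm
    obtain ⟨F, hF, hle⟩ := Levels.exists_ge (L := L) ![F₀, F₁, F₂]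
      (fun i => by fin_cases i <;> assumption)
    refine ⟨F, hF, fun g g' s s' hs hs' => ?_⟩
    simp only
    rw [h₀ g s (level_antitone (hle 0) hs), h₁ g' s' (level_antitone (hle 1) hs'), map_mul,
      Module.End.mul_apply, h₂ s (level_antitone (hle 2) hs)]

end Fermat.Agent.CFT
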