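import Fermat.Agent.CFT.Cohomology.Basic

/-!
# Shapiro's lemma in degrees one and two for level-constant cochains
-/

set_option autoImplicit false

open CategoryTheory groupCohomology ExtCitation

noncomputable section

namespace Fermat.Agent.CFT

variable {G : Type} [Group G] {L : Levels} {r : G →* GQ} (U : Subgroup G)

open Classical in
/-- Coset representatives, `1` on the trivial coset. -/
def cosetRep (x : G ⧸ U) : G := if x = QuotientGroup.mk 1 then 1 else x.out

@[simp] lemma mk_cosetRep (x : G ⧸ U) : (QuotientGroup.mk (cosetRep U x) : G ⧸ U) = x := by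
  unfold cosetRep
  split_ifs with h
  · exact h.symm
  · exact QuotientGroup.out_eq' x

@[simp] lemma cosetRep_one : cosetRep U (QuotientGroup.mk 1) = 1 := if_pos rfl

/-- The `U`-part of `g` at the coset `x`. -/
def cosetPart (g : G) (x : G ⧸ U) : U :=
  ⟨(cosetRep U x)⁻¹ * g * cosetRep U (g⁻¹ • x), by
    rw [mul_assoc, ← QuotientGroup.eq, mk_cosetRep, ← smul_eq_mul, ← MulAction.Quotient.smul_mk,
      mk_cosetRep, smul_inv_smul]⟩

lemma coe_cosetPart (g : G) (x : G ⧸ U) :
    (cosetPart U g x : G) = (cosetRep U x)⁻¹ * g * cosetRep U (g⁻¹ • x) := rfl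

lemma cosetRep_mul_cosetPart (g : G) (x : G ⧸ U) :
    cosetRep U x * (cosetPart U g x : G) = g * cosetRep U (g⁻¹ • x) := by
  simp [coe_cosetPart, mul_assoc]

lemma cosetPart_mul (g h : G) (x : G ⧸ U) :
    cosetPart U (g * h) x = cosetPart U g x * cosetPart U h (g⁻¹ • x) := by
  ext
  simp only [Subgroup.coe_mul, coe_cosetPart, mul_inv_rev, mul_smul]
  group

lemma inv_smul_mk_one (s : U) :
    (s : G)⁻¹ • (QuotientGroup.mk 1 : G ⧸ U) = QuotientGroup.mk 1 := by
  rw [MulAction.Quotient.smul_mk, QuotientGroup.eq]; simp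

@[simp] lemma cosetPart_coe (s : U) : cosetPart U (s : G) (QuotientGroup.mk 1) = s := by
  ext
  rw [coe_cosetPart, inv_smul_mk_one, cosetRep_one]
  simp

variable {U}

/-- At a normal level inside `U` the cosets do not move and the `U`-part is multiplied by an
element of the level. -/
lemma cosetPart_mul_level {F : IntermediateField ℚ (AlgebraicClosure ℚ)} (hN : Normal ℚ F)
    (hFU : ∀ s, r s ∈ F.fixingSubgroup → s ∈ U) (g : G) {s : G} (hs : r s ∈ F.fixingSubgroup)
    (x : G ⧸ U) :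
    (g * s)⁻¹ • x = g⁻¹ • x ∧
      ∃ s₁ : U, r s₁ ∈ F.fixingSubgroup ∧ cosetPart U (g * s) x = cosetPart U g x * s₁ := by
  set t := cosetRep U (g⁻¹ • x) with ht
  have hs₁ : r (t⁻¹ * s * t) ∈ F.fixingSubgroup := conj_mem_level hN hs t
  have e : (g * s)⁻¹ • x = g⁻¹ • x := by
    rw [mul_inv_rev, mul_smul, inv_smul_eq_iff]
    conv_rhs => rw [← mk_cosetRep U (g⁻¹ • x), MulAction.Quotient.smul_mk]
    conv_lhs => rw [← mk_cosetRep U (g⁻¹ • x)]
    rw [QuotientGroup.eq, smul_eq_mul, ← mul_assoc]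
    exact hFU _ hs₁
  refine ⟨e, ⟨_, hFU _ hs₁⟩, hs₁, Subtype.ext ?_⟩
  simp only [Subgroup.coe_mul, coe_cosetPart, e, ← ht]
  group

variable {k : Type} [CommRing k] {M : Rep.{0} k G}

lemma funRepρ_apply (g : G) (f : G ⧸ U → M) (x : G ⧸ U) :
    funRepρ M U g f x = M.ρ g (f (g⁻¹ • x)) := rfl

variable (U) in
lemma inv_cosetRep_smul (x : G ⧸ U) : (cosetRep U x)⁻¹ • x = QuotientGroup.mk 1 := by
  rw [inv_smul_eq_iff, MulAction.Quotient.smul_mk, smul_eq_mul, mul_one, mk_cosetRep]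

lemma exists_shapiro₁ (hL : L.NormalBasis) (hU : IsLevelSubgroup L r U) (z : U → M)
    (hz : ∀ s t, z (s * t) = M.ρ s (z t) + z s) (hzc : IsConst₁ L (r.comp U.subtype) z) :
    ∃ w : G → (funRep M U), (∀ s t, w (s * t) = (funRep M U).ρ s (w t) + w s) ∧
      IsConst₁ L r w ∧ ∀ s : U, w s (QuotientGroup.mk 1) = z s := by
  refine ⟨fun g x => M.ρ (cosetRep U x) (z (cosetPart U g x)), fun g h => funext fun x => ?_, ?_,
    fun s => ?_⟩
  · simp only [Pi.add_apply, funRepρ_apply]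
    rw [← Module.End.mul_apply, ← map_mul, ← cosetRep_mul_cosetPart,
      map_mul, Module.End.mul_apply, ← map_add, cosetPart_mul, hz]
  · obtain ⟨FU, hFU, hU'⟩ := hU
    obtain ⟨F₀, hF₀, h₀⟩ := hzc
    obtain ⟨F, hF, hN, hleU, hle₀⟩ := Levels.exists_normal₂ hL hFU hF₀
    refine ⟨F, hF, fun g s hs => funext fun x => ?_⟩
    obtain ⟨-, s₁, hs₁, e⟩ :=
      cosetPart_mul_level hN (fun s h => hU' s (level_antitone hleU h)) g hs x
    simp only [e, h₀ _ _ (level_antitone hle₀ hs₁)]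
  · simp

lemma shapiro₁_eq_coboundary (w : G → (funRep M U))
    (hw : ∀ s t, w (s * t) = (funRep M U).ρ s (w t) + w s) (m : M)
    (hm : ∀ s : U, w s (QuotientGroup.mk 1) = M.ρ s m - m) :
    ∃ f : (funRep M U : Type), ∀ g, w g = (funRep M U).ρ g f - f := by
  refine ⟨fun x => M.ρ (cosetRep U x) m - w (cosetRep U x) x, fun g => funext fun x => ?_⟩
  have e1 := congrFun (hw g (cosetRep U (g⁻¹ • x))) x
  have e2 := congrFun (hw (cosetRep U x) (cosetPart U g x : G)) x
  have e3 := inv_cosetRep_smul U x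
  rw [cosetRep_mul_cosetPart, Pi.add_apply, funRepρ_apply, e3, hm, map_sub,
    ← Module.End.mul_apply, ← map_mul, cosetRep_mul_cosetPart, e1, Pi.add_apply,
    funRepρ_apply] at e2
  rw [Pi.sub_apply, funRepρ_apply, map_sub, ← Module.End.mul_apply, ← map_mul]
  generalize hA : M.ρ (g * cosetRep U (g⁻¹ • x)) m = a at e2 ⊢
  generalize hB : M.ρ g (w (cosetRep U (g⁻¹ • x)) (g⁻¹ • x)) = b at e2 ⊢
  rw [eq_sub_iff_add_eq, eq_sub_iff_add_eq]
  calc _ = (b + w g x) + M.ρ (cosetRep U x) m - w (cosetRep U x) x := by abel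
    _ = _ := by rw [e2]; abel

/-- The inverse of Shapiro's map in degree two, on cochains. -/
def shapiroInv₂ (c : U × U → M) : G × G → (funRep M U : Type) :=
  fun gh x => M.ρ (cosetRep U x) (c (cosetPart U gh.1 x, cosetPart U gh.2 (gh.1⁻¹ • x)))

lemma shapiroInv₂_mem_cocycles₂ {c : U × U → M} (hc : c ∈ cocycles₂ (Rep.res U.subtype M)) :
    shapiroInv₂ c ∈ cocycles₂ (funRep M U) := by
  rw [mem_cocycles₂_iff]
  refine fun g h j => funext fun x => ?_
  have e := (mem_cocycles₂_iff (A := Rep.res U.subtype M) c).1 hc (cosetPart U g x) (cosetPart U h (g⁻¹ • x))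
    (cosetPart U j (h⁻¹ • g⁻¹ • x))
  simp only [Pi.add_apply, funRepρ_apply, shapiroInv₂]
  rw [← Module.End.mul_apply (M.ρ g), ← map_mul, ← cosetRep_mul_cosetPart, map_mul,
    Module.End.mul_apply, ← map_add, ← map_add, mul_inv_rev, mul_smul, cosetPart_mul,
    cosetPart_mul]
  exact congrArg _ e

lemma shapiroInv₂_isConst₂ (hL : L.NormalBasis) (hU : IsLevelSubgroup L r U) {c : U × U → M}
    (hc : IsConst₂ L (r.comp U.subtype) c) : IsConst₂ L r (shapiroInv₂ c) := by
  obtain ⟨FU, hFU, hU'⟩ := hU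
  obtain ⟨F₀, hF₀, h₀⟩ := hc
  obtain ⟨F, hF, hN, hleU, hle₀⟩ := Levels.exists_normal₂ hL hFU hF₀
  refine ⟨F, hF, fun g g' s s' hs hs' => funext fun x => ?_⟩
  have hFU' : ∀ s, r s ∈ F.fixingSubgroup → s ∈ U := fun s h => hU' s (level_antitone hleU h)
  obtain ⟨e, s₁, hs₁, e₁⟩ := cosetPart_mul_level hN hFU' g hs x
  obtain ⟨-, s₂, hs₂, e₂⟩ := cosetPart_mul_level hN hFU' g' hs' (g⁻¹ • x)
  simp only [shapiroInv₂]
  rw [e, e₁, e₂, h₀ _ _ _ _ (level_antitone hle₀ hs₁) (level_antitone hle₀ hs₂)]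

lemma shapiro₂_cochain (c : U × U → M) (s t : U) :
    shapiroInv₂ c (s, t) (QuotientGroup.mk 1) = c (s, t) := by
  simp only [shapiroInv₂, inv_smul_mk_one, cosetPart_coe, cosetRep_one, map_one,
    Module.End.one_apply]

/-- A constant cocycle in `funRep` whose Shapiro restriction is the coboundary of a constant
cochain is itself such a coboundary. -/
lemma exists_eq_d₁₂_of_shapiro (hL : L.NormalBasis) (hU : IsLevelSubgroup L r U)
    {C : G × G → (funRep M U : Type)} (hC : C ∈ cocycles₂ (funRep M U)) (hCc : IsConst₂ L r C)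
    {b : U → M} (hb : IsConst₁ L (r.comp U.subtype) b)
    (hCb : ∀ s t : U, C (s, t) (QuotientGroup.mk 1) =
      M.ρ s (b t) - b (s * t) + b s) :
    ∃ Y : G → (funRep M U : Type), IsConst₁ L r Y ∧ (d₁₂ (funRep M U)).hom Y = C := by
  let Φ : G → (funRep M U : Type) := fun g x => C (g, cosetRep U (g⁻¹ • x)) x
  let Ψ : G → (funRep M U : Type) := fun g x => C (cosetRep U x, (cosetPart U g x : G)) x
  let B : G → (funRep M U : Type) := fun g x => M.ρ (cosetRep U x) (b (cosetPart U g x))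
  refine ⟨Φ - Ψ + B, ?_, funext fun ⟨g, h⟩ => funext fun x => ?_⟩
  · obtain ⟨FU, hFU, hU'⟩ := hU
    obtain ⟨F₀, hF₀, h₀⟩ := hb
    obtain ⟨F₁, hF₁, h₁⟩ := hCc
    obtain ⟨F, hF, hN, hleU, hle₀⟩ := Levels.exists_normal₂ hL hFU (L.sup _ _ hF₀ hF₁)
    refine ⟨F, hF, fun g s hs => funext fun x => ?_⟩
    have h1' : r (1 : G) ∈ F₁.fixingSubgroup := by rw [map_one]; exact one_mem _
    obtain ⟨e, s₁, hs₁, e₁⟩ :=
      cosetPart_mul_level hN (fun s h => hU' s (level_antitone hleU h)) g hs x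
    have hΦ : Φ (g * s) x = Φ g x := by
      simp only [Φ, e]
      have := congrFun (h₁ g (cosetRep U (g⁻¹ • x)) s 1
        (level_antitone (le_sup_right.trans hle₀) hs) h1') x
      simpa using this
    have hΨ : Ψ (g * s) x = Ψ g x := by
      simp only [Ψ, e₁, Subgroup.coe_mul]
      have := congrFun (h₁ (cosetRep U x) (cosetPart U g x : G) 1 (s₁ : G) h1'
        (level_antitone (le_sup_right.trans hle₀) hs₁)) x
      simpa using this
    have hB : B (g * s) x = B g x := by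
      simp only [B, e₁]
      rw [h₀ _ _ (level_antitone (le_sup_left.trans hle₀) hs₁)]
    simp only [Pi.add_apply, Pi.sub_apply, hΦ, hΨ, hB]
  · have hc := (mem_cocycles₂_iff C).1 hC
    set y := g⁻¹ • x with hy
    set tz := cosetRep U (h⁻¹ • y) with htz
    set ty := cosetRep U y with hty
    set tx := cosetRep U x with htx
    set κg := cosetPart U g x with hκg
    set κh := cosetPart U h y with hκh
    have e3 : tx⁻¹ • x = QuotientGroup.mk 1 := inv_cosetRep_smul U x
    have egy : tx * (κg : G) = g * ty := cosetRep_mul_cosetPart U g x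
    have ehz : ty * (κh : G) = h * tz := cosetRep_mul_cosetPart U h y
    have eρ : ∀ m : M, M.ρ g (M.ρ ty m) = M.ρ tx (M.ρ (κg : G) m) := fun m => by
      rw [← Module.End.mul_apply, ← map_mul, ← egy, map_mul, Module.End.mul_apply]
    have c1 := congrFun (hc g h tz) x
    have c2 := congrFun (hc g ty (κh : G)) x
    have c3 := congrFun (hc tx (κg : G) (κh : G)) x
    simp only [Pi.add_apply, funRepρ_apply, e3, ← hy] at c1 c2 c3
    rw [← ehz] at c1
    rw [← egy] at c2
    rw [hCb] at c3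
    simp only [d₁₂_hom_apply, Pi.add_apply, Pi.sub_apply, funRepρ_apply, ← hy, Φ, Ψ, B, map_add,
      map_sub, mul_inv_rev, mul_smul, cosetPart_mul, ← hκg, ← hκh, ← htx, ← hty, ← htz, eρ,
      Subgroup.coe_mul]
    simp only [map_add, map_sub] at c3
    linear_combination (norm := abel) c2 - c1 - c3

end Fermat.Agent.CFT
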